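/-
S33 (ordinary at `p` when `p ∥ N`), route of helper228 (report #7423), brick (W.1): the wiring.
Typed by helper71.

The lattice-side Props of the route, on an `ESData` lattice `D` with its `p`-adic Hecke ring
`Rp D S` (S32/HeckeRing), a valuation subring `P` of `ℚ̄` over `p` with inertia group `I`, and an
ideal `𝔫` of `Rp D S`:

* `OrdRel D S P 𝔫` : for all `σ τ ∈ I` some `U ∈ Rp ∖ 𝔫` kills `(ρ_D σ - ε σ)(ρ_D τ - 1)`;
* `TR D S .. P 𝔫`  : `τ_D(σ) - 1 - ε(σ) ∈ 𝔫` for `σ ∈ I`;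
* `NC D S .. 𝔫`    : no character `λ : G_ℚ → (Rp / 𝔫)ˣ` with `λ² - τ_D λ + ε = 0`.

Main results (for a frozen `HeckeGaloisRepDatum` `H` with coefficient ring `T`, `ι : ℤ_p → T`):

* `rho_add_inv`  : `ρ g + χ(g) ρ g⁻¹ = tr ρ(g)` in `End_T(V)`, `χ = ι ∘ ε`;
* `det_eq`       : `det ρ(g) = ι (ε g)` for every `g`;
* `rel_of_ordRel`: `OrdRel` at `𝔫 = piR⁻¹(𝔪_T)` gives `(ρ σ - χ σ)(ρ τ - 1) = 0` on `I`;
* `line_of_rel`  : (any rank-two `ρ` over a local ring) the relation on `I`, `det = χ` and one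
  `τ₀ ∈ I` with `χ τ₀ - 1` a unit give the line of `IsOrdinaryAt` at `P`;
* `line_of_ordRel` : the composition.
-/
import Mathlib
import Fermat.Prelude.Def_CuspForm_HeckeGaloisRepDatum
import Fermat.Prelude.Def_GaloisRep_LocalConditions
import Fermat.Agent.S32.Transfer

set_option autoImplicit false

noncomputable section

namespace Fermat.Agent.S33.W.Wiring

open Fermat.Agent.S30 Fermat.Agent.S31.Glue Fermat.Agent.S32.HeckeRing Fermat.Agent.S32.Tau
  Fermat.Agent.S32.Transfer IsLocalRing Matrix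

local notation "Qb" => AlgebraicClosure ℚ

/-! ### The lattice-side Props -/

section Props

variable {N p : ℕ} [NeZero N] [Fact p.Prime]

/-- **The ordinarity relation on the lattice, localised at `𝔫`.**  For all `σ, τ` in the inertia
group of `P` some element `U` of the Hecke ring outside `𝔫` kills
`(ρ_D σ - ε σ)(ρ_D τ - 1)`. -/
def OrdRel (D : ESData N p) (S : Finset ℕ) (P : ValuationSubring Qb) (𝔫 : Ideal (Rp D S)) :
    Prop :=
  ∀ σ ∈ P.inertiaSubgroupIn ℚ, ∀ τ ∈ P.inertiaSubgroupIn ℚ, ∃ U : Rp D S, U ∉ 𝔫 ∧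
    (U : Matrix (Fin D.r) (Fin D.r) ℤ_[p]) *
      ((D.ρ σ - algebraMap ℤ_[p] (Matrix (Fin D.r) (Fin D.r) ℤ_[p])
          ((CycloChar.eps p σ : ℤ_[p]ˣ) : ℤ_[p])) * (D.ρ τ - 1)) = 0

/-- **(TR)** On inertia the trace is `1 + ε` modulo `𝔫`. -/
def TR (D : ESData N p) (S : Finset ℕ) (hdens : FrobDensity) (hpS : p ∈ S)
    (hNS : ∀ q : ℕ, q.Prime → q ∣ N → q ∈ S) (P : ValuationSubring Qb) (𝔫 : Ideal (Rp D S)) :
    Prop :=
  ∀ σ ∈ P.inertiaSubgroupIn ℚ,
    tauR D S hdens hpS hNS σ - 1 - ((epsR D S σ : (Rp D S)ˣ) : Rp D S) ∈ 𝔫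

/-- **(NC)** No character of `G_ℚ` with values in `(Rp / 𝔫)ˣ` is a root of all the Hecke
polynomials `X² - τ_D(g) X + ε(g)`. -/
def NC (D : ESData N p) (S : Finset ℕ) (hdens : FrobDensity) (hpS : p ∈ S)
    (hNS : ∀ q : ℕ, q.Prime → q ∣ N → q ∈ S) (𝔫 : Ideal (Rp D S)) : Prop :=
  ¬ ∃ lam : GQ →* (Rp D S ⧸ 𝔫)ˣ, ∀ g : GQ,
    ((lam g : (Rp D S ⧸ 𝔫)ˣ) : Rp D S ⧸ 𝔫) ^ 2
      - Ideal.Quotient.mk 𝔫 (tauR D S hdens hpS hNS g) * ((lam g : (Rp D S ⧸ 𝔫)ˣ) : Rp D S ⧸ 𝔫)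
      + Ideal.Quotient.mk 𝔫 ((epsR D S g : (Rp D S)ˣ) : Rp D S) = 0

/-- **The lattice exit of S33** (no `T`, `𝒪`, `H` in it): for every `P` over `p` some `ESData`
lattice satisfies the ordinarity relation at every maximal ideal of its Hecke ring over `p` at
which (TR) and (NC) hold.  (To be proved for `p` odd with `p ∥ N` only.) -/
def LatExit (N p : ℕ) [NeZero N] [Fact p.Prime] : Prop :=
  ∀ P : ValuationSubring Qb, P.LiesOverPrime p → ∃ D : ESData N p,
    ∀ (S : Finset ℕ) (hdens : FrobDensity) (hpS : p ∈ S)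
      (hNS : ∀ q : ℕ, q.Prime → q ∣ N → q ∈ S) (𝔫 : Ideal (Rp D S)), 𝔫.IsMaximal →
      (p : Rp D S) ∈ 𝔫 → TR D S hdens hpS hNS P 𝔫 → NC D S hdens hpS hNS 𝔫 → OrdRel D S P 𝔫

end Props

/-! ### Two-by-two matrix algebra -/

section TwoByTwo

variable {T : Type*} [CommRing T]

/-- Cayley–Hamilton for two-by-two matrices. -/
theorem sq_eq_trace_smul_sub_det (M : Matrix (Fin 2) (Fin 2) T) :
    M * M = M.trace • M - M.det • (1 : Matrix (Fin 2) (Fin 2) T) := by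
  ext i j
  fin_cases i <;> fin_cases j <;>
    simp [Matrix.mul_apply, Fin.sum_univ_two, Matrix.det_fin_two, Matrix.trace_fin_two] <;> ring

/-- A two-by-two matrix `M` with `M² = c M`, `det (1 + M) = 1 + c` and `1 + M` invertible has
determinant `0` and trace `c`. -/
theorem det_trace_of_sq (M N : Matrix (Fin 2) (Fin 2) T) (c : T) (h1 : M * M = c • M)
    (h2 : (1 + M).det = 1 + c) (h3 : (1 + M) * N = 1) : M.det = 0 ∧ M.trace = c := by
  have hCH := sq_eq_trace_smul_sub_det M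
  have h2' : M.trace + M.det = c := by
    have : (1 + M).det = 1 + M.trace + M.det := by
      simp [Matrix.det_fin_two, Matrix.trace_fin_two]; ring
    rw [this] at h2
    linear_combination h2
  -- `δ • (1 + M) = 0`
  have hδ : M.det • (1 + M) = 0 := by
    have e1 : M.det • (1 + M) = M.det • (1 : Matrix (Fin 2) (Fin 2) T) + M.det • M := smul_add _ _ _
    have e2 : M.det • (1 : Matrix (Fin 2) (Fin 2) T) = M.trace • M - c • M := by
      rw [← h1, hCH]; abel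
    have e3 : M.trace • M - c • M = -(M.det • M) := by
      rw [← sub_smul, ← neg_smul]
      congr 1
      linear_combination h2'
    rw [e1, e2, e3, neg_add_cancel]
  have hδ0 : M.det = 0 := by
    have h4 : M.det • ((1 + M) * N) = 0 := by rw [← Matrix.smul_mul, hδ, Matrix.zero_mul]
    rw [h3] at h4
    have := congrFun (congrFun h4 0) 0
    simpa using this
  refine ⟨hδ0, ?_⟩
  rw [hδ0, add_zero] at h2'
  exact h2'

end TwoByTwo

/-! ### The basis line of an endomorphism of determinant zero -/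

section Line

variable {T : Type*} [CommRing T] {V : Type*} [AddCommGroup V] [Module T V]

/-- If `det X = 0` and the `(0, 0)` coefficient of `X` in the basis `e` is a unit, then
`X (e 0)` is the first vector of a basis and spans the range of `X`. -/
theorem exists_basis_of_isUnit (e : Module.Basis (Fin 2) T V) (X : Module.End T V)
    (hdet : LinearMap.det X = 0) (hu : IsUnit (e.repr (X (e 0)) 0)) :
    ∃ b : Module.Basis (Fin 2) T V, b 0 = X (e 0) ∧ ∀ v, X v ∈ Submodule.span T {b 0} := by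
  classical
  set M : Matrix (Fin 2) (Fin 2) T := LinearMap.toMatrix e e X with hM
  have hMij : ∀ i j, M i j = e.repr (X (e j)) i := fun i j => LinearMap.toMatrix_apply e e X i j
  have hMdet : M.det = 0 := by rw [hM, LinearMap.det_toMatrix, hdet]
  have hdet' : M 0 0 * M 1 1 = M 0 1 * M 1 0 := by
    rw [Matrix.det_fin_two] at hMdet
    linear_combination hMdet
  let f : V →ₗ[T] V := e.constr T ![X (e 0), e 1]
  have hf0 : f (e 0) = X (e 0) := by
    show e.constr T ![X (e 0), e 1] (e 0) = _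
    rw [Module.Basis.constr_basis]; rfl
  have hf1 : f (e 1) = e 1 := by
    show e.constr T ![X (e 0), e 1] (e 1) = _
    rw [Module.Basis.constr_basis]; rfl
  have hfdet : (LinearMap.toMatrix e e f).det = M 0 0 := by
    rw [Matrix.det_fin_two, LinearMap.toMatrix_apply, LinearMap.toMatrix_apply,
      LinearMap.toMatrix_apply, LinearMap.toMatrix_apply, hf0, hf1, ← hMij, ← hMij]
    simp
  have hunit : IsUnit (LinearMap.toMatrix e e f).det := by
    rw [hfdet, hMij]; exact hu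
  let b : Module.Basis (Fin 2) T V := e.map (LinearEquiv.ofIsUnitDet hunit)
  have hb0 : b 0 = X (e 0) := by
    show (e.map (LinearEquiv.ofIsUnitDet hunit)) 0 = _
    rw [Module.Basis.map_apply, LinearEquiv.ofIsUnitDet_apply, hf0]
  refine ⟨b, hb0, fun v => ?_⟩
  rw [hb0]
  -- `X (e 1)` is a multiple of `X (e 0)`
  have hXe : ∀ j, X (e j) = M 0 j • e 0 + M 1 j • e 1 := by
    intro j
    conv_lhs => rw [← e.sum_repr (X (e j))]
    rw [Fin.sum_univ_two, hMij, hMij]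
  have h1 : M 0 0 • X (e 1) = M 0 1 • X (e 0) := by
    rw [hXe 1, hXe 0, smul_add, smul_add, smul_smul, smul_smul, smul_smul, smul_smul, hdet',
      mul_comm (M 0 0) (M 0 1)]
  obtain ⟨a, ha⟩ := (hMij 0 0 ▸ hu : IsUnit (M 0 0))
  have h2 : X (e 1) = ((a⁻¹ : Tˣ) : T) • M 0 1 • X (e 0) := by
    rw [← h1, ← ha, smul_smul, Units.inv_mul, one_smul]
  have hv : X v = e.repr v 0 • X (e 0) + e.repr v 1 • X (e 1) := by
    conv_lhs => rw [← e.sum_repr v]
    rw [Fin.sum_univ_two, map_add, map_smul, map_smul]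
  rw [hv, h2]
  refine Submodule.add_mem _ (Submodule.smul_mem _ _ (Submodule.mem_span_singleton_self _)) ?_
  exact Submodule.smul_mem _ _ (Submodule.smul_mem _ _ (Submodule.smul_mem _ _
    (Submodule.mem_span_singleton_self _)))

/-- If `det X = 0` and `tr X` is a unit of the local ring `T`, the range of `X` is contained in
a basis line spanned by a vector of the range. -/
theorem exists_basis_of_trace [IsLocalRing T] (e : Module.Basis (Fin 2) T V) (X : Module.End T V)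
    (hdet : LinearMap.det X = 0) (htr : IsUnit (LinearMap.trace T V X)) :
    ∃ (b : Module.Basis (Fin 2) T V) (w : V), b 0 = X w ∧ ∀ v, X v ∈ Submodule.span T {b 0} := by
  classical
  rw [LinearMap.trace_eq_matrix_trace T e, Matrix.trace_fin_two, LinearMap.toMatrix_apply,
    LinearMap.toMatrix_apply] at htr
  rcases IsLocalRing.isUnit_or_isUnit_of_isUnit_add htr with h | h
  · obtain ⟨b, hb, hbr⟩ := exists_basis_of_isUnit e X hdet h
    exact ⟨b, e 0, hb, hbr⟩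
  · let e' : Module.Basis (Fin 2) T V := e.reindex (Equiv.swap 0 1)
    have he'0 : e' 0 = e 1 := by
      show (e.reindex (Equiv.swap 0 1)) 0 = _
      rw [Module.Basis.reindex_apply, Equiv.symm_swap, Equiv.swap_apply_left]
    have hu : IsUnit (e'.repr (X (e' 0)) 0) := by
      rw [he'0]
      show IsUnit ((e.reindex (Equiv.swap 0 1)).repr (X (e 1)) 0)
      rw [Module.Basis.repr_reindex_apply, Equiv.symm_swap, Equiv.swap_apply_left]
      exact h
    obtain ⟨b, hb, hbr⟩ := exists_basis_of_isUnit e' X hdet hu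
    exact ⟨b, e 1, by rw [hb, he'0], hbr⟩

end Line

/-! ### Conjugation and inertia -/

/-- Conjugating an inertia element by an element of the decomposition group gives an inertia
element. -/
theorem conj_mem_inertia (P : ValuationSubring Qb) {g τ : GQ}
    (hg : g ∈ P.decompositionSubgroup ℚ) (hτ : τ ∈ P.inertiaSubgroupIn ℚ) :
    g * τ * g⁻¹ ∈ P.inertiaSubgroupIn ℚ := by
  obtain ⟨τ', hτ', rfl⟩ := hτ
  refine ⟨⟨g, hg⟩ * τ' * ⟨g, hg⟩⁻¹, ?_, rfl⟩
  have hn : (P.inertiaSubgroup ℚ).Normal := by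
    unfold ValuationSubring.inertiaSubgroup
    infer_instance
  exact hn.conj_mem τ' hτ' ⟨g, hg⟩

/-! ### The line of `IsOrdinaryAt` from the relation on inertia -/

section LineOfRel

variable {T : Type} [CommRing T] [IsLocalRing T]

/-- **The line.**  Let `ρ` be a rank-two Galois representation over a local ring `T` with
`det ρ = χ`, and `P` a valuation subring of `ℚ̄` with inertia group `I`.  If
`(ρ σ - χ σ)(ρ τ - 1) = 0` for all `σ, τ ∈ I` and `χ τ₀ - 1` is a unit for one `τ₀ ∈ I`, then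
`L = (ρ τ₀ - 1) V` is a basis line, stable under the decomposition group, containing
`(ρ σ - 1) V` for all `σ ∈ I`. -/
theorem line_of_rel (ρ : GaloisRepAdic T) (χ : GQ → T)
    (hdet : ∀ g : GQ, LinearMap.det (ρ.ρ g) = χ g) (P : ValuationSubring Qb)
    (hrel : ∀ σ ∈ P.inertiaSubgroupIn ℚ, ∀ τ ∈ P.inertiaSubgroupIn ℚ,
      (ρ.ρ σ - χ σ • (1 : Module.End T ρ.V)) * (ρ.ρ τ - 1) = 0)
    (τ₀ : GQ) (hτ₀ : τ₀ ∈ P.inertiaSubgroupIn ℚ) (hu : IsUnit (χ τ₀ - 1)) :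
    ∃ L : Submodule T ρ.V,
      (∃ b : Module.Basis (Fin 2) T ρ.V, L = T ∙ b 0) ∧
      (∀ σ ∈ P.decompositionSubgroup ℚ, ∀ v ∈ L, ρ.ρ σ v ∈ L) ∧
      (∀ σ ∈ P.inertiaSubgroupIn ℚ, ∀ v : ρ.V, ρ.ρ σ v - v ∈ L) := by
  classical
  let e : Module.Basis (Fin 2) T ρ.V := Module.finBasisOfFinrankEq T ρ.V ρ.finrank_eq
  set X : Module.End T ρ.V := ρ.ρ τ₀ - 1 with hX
  set c : T := χ τ₀ - 1 with hc
  -- `(X - c) (ρ τ - 1) = 0` on inertia
  have hXc : ∀ τ ∈ P.inertiaSubgroupIn ℚ, ∀ v : ρ.V, X (ρ.ρ τ v - v) = c • (ρ.ρ τ v - v) := by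
    intro τ hτ v
    have h := LinearMap.congr_fun (hrel τ₀ hτ₀ τ hτ) v
    rw [Module.End.mul_apply, LinearMap.sub_apply, LinearMap.sub_apply, LinearMap.smul_apply,
      Module.End.one_apply, Module.End.one_apply, LinearMap.zero_apply, sub_eq_zero] at h
    rw [hX, hc, LinearMap.sub_apply, Module.End.one_apply, sub_smul, one_smul, h]
  have hXX : X * X = c • X := by
    refine LinearMap.ext fun v => ?_
    rw [Module.End.mul_apply, LinearMap.smul_apply]
    have := hXc τ₀ hτ₀ v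
    rw [hX, LinearMap.sub_apply, Module.End.one_apply]
    exact this
  -- matrices
  set M : Matrix (Fin 2) (Fin 2) T := LinearMap.toMatrix e e X with hM
  have hMM : M * M = c • M := by
    rw [hM, ← LinearMap.toMatrix_mul, hXX, map_smul]
  have h1M : 1 + M = LinearMap.toMatrix e e (ρ.ρ τ₀) := by
    rw [hM, hX, map_sub, LinearMap.toMatrix_one]; abel
  have hdet1 : (1 + M).det = 1 + c := by
    rw [h1M, LinearMap.det_toMatrix, hdet, hc]; ring
  have hinv : (1 + M) * LinearMap.toMatrix e e (ρ.ρ τ₀⁻¹) = 1 := by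
    rw [h1M, ← LinearMap.toMatrix_mul, ← map_mul, mul_inv_cancel, map_one,
      LinearMap.toMatrix_one]
  obtain ⟨hMdet, hMtr⟩ := det_trace_of_sq M _ c hMM hdet1 hinv
  have hXdet : LinearMap.det X = 0 := by rw [← LinearMap.det_toMatrix e, ← hM, hMdet]
  have hXtr : IsUnit (LinearMap.trace T ρ.V X) := by
    rw [LinearMap.trace_eq_matrix_trace T e, ← hM, hMtr]; exact hu
  obtain ⟨b, w, hbw, hrange⟩ := exists_basis_of_trace e X hXdet hXtr
  obtain ⟨cu, hcu⟩ := hu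
  -- everything in the range of `ρ τ - 1`, `τ ∈ I`, lies in the line
  have hI : ∀ τ ∈ P.inertiaSubgroupIn ℚ, ∀ v : ρ.V, ρ.ρ τ v - v ∈ Submodule.span T {b 0} := by
    intro τ hτ v
    have h1 := hXc τ hτ v
    have h2 : ρ.ρ τ v - v = ((cu⁻¹ : Tˣ) : T) • X (ρ.ρ τ v - v) := by
      rw [h1, smul_smul, ← hcu, Units.inv_mul, one_smul]
    rw [h2]
    exact Submodule.smul_mem _ _ (hrange _)
  refine ⟨Submodule.span T {b 0}, ⟨b, rfl⟩, ?_, hI⟩
  intro σ hσ v hv
  obtain ⟨a, rfl⟩ := Submodule.mem_span_singleton.mp hv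
  rw [map_smul]
  refine Submodule.smul_mem _ _ ?_
  -- `ρ σ (X w) = (ρ (σ τ₀ σ⁻¹) - 1) (ρ σ w)`
  have hconj := conj_mem_inertia P hσ hτ₀
  have h3 : ρ.ρ σ (b 0) = ρ.ρ (σ * τ₀ * σ⁻¹) (ρ.ρ σ w) - ρ.ρ σ w := by
    rw [hbw, hX, LinearMap.sub_apply, Module.End.one_apply, map_sub, ← Module.End.mul_apply,
      ← Module.End.mul_apply, ← map_mul, ← map_mul, inv_mul_cancel_right]
  rw [h3]
  exact hI _ hconj _

end LineOfRel

/-! ### The frozen datum -/

section Datum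

variable {N p : ℕ} [NeZero N] [Fact p.Prime] (D : ESData N p) {S : Finset ℕ}
  {𝒪 : Type} [CommRing 𝒪] [IsDomain 𝒪] [IsDiscreteValuationRing 𝒪]
  [IsAdicComplete (IsLocalRing.maximalIdeal 𝒪) 𝒪]
  {θ : CuspForm.heckeAlgebra N 2 (↑S : Set ℕ) →+* IsLocalRing.ResidueField 𝒪}
  {T : Type} [CommRing T] [IsLocalRing T] [IsNoetherianRing T]
  [IsAdicComplete (IsLocalRing.maximalIdeal T) T] [Algebra 𝒪 T] [IsLocalHom (algebraMap 𝒪 T)]
  [Module.Finite 𝒪 T] [Module.Free 𝒪 T]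
  (H : CuspForm.HeckeGaloisRepDatum N (↑S : Set ℕ) 𝒪 θ T) (ι : ℤ_[p] →+* T)

/-- The image of `τ_D(g)` in `T` is the trace of `H.ρ(g)`. -/
theorem piR_tauR [Finite (ResidueField T)] (hdens : FrobDensity) (hpS : p ∈ S)
    (hNS : ∀ q : ℕ, q.Prime → q ∣ N → q ∈ S) (hpT : (p : T) ∈ maximalIdeal T) (g : GQ) :
    piR D H ι hpS hpT (tauR D S hdens hpS hNS g) = LinearMap.trace T H.ρ.V (H.ρ.ρ g) := by
  obtain ⟨Q₀, hQ₀⟩ := exists_tau D S hdens hpS hNS g
  have h1 : tauR D S hdens hpS hNS g = ap D S Q₀ := Subtype.ext hQ₀.symm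
  rw [h1, piR_ap, pip_eq_trace D H hdens hpS hNS hpT ι g Q₀ hQ₀]

/-- The image of `ε(g)` in `T`. -/
theorem piR_epsR (hpS : p ∈ S) (hpT : (p : T) ∈ maximalIdeal T) (g : GQ) :
    piR D H ι hpS hpT ((epsR D S g : (Rp D S)ˣ) : Rp D S)
      = ι ((CycloChar.eps p g : ℤ_[p]ˣ) : ℤ_[p]) := by
  have h1 : ((epsR D S g : (Rp D S)ˣ) : Rp D S)
      = ap D S (MvPolynomial.C ((CycloChar.eps p g : ℤ_[p]ˣ) : ℤ_[p])) := by
    apply Subtype.ext
    rw [epsR_coe, ap_coe, mpp_C]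
  rw [h1, piR_ap, pip_C]

include D in
/-- **The trace relation in `End_T(V)`**: `ρ g + χ(g) ρ g⁻¹ = tr ρ(g)`. -/
theorem rho_add_inv [Finite (ResidueField T)] (hdens : FrobDensity) (hpS : p ∈ S)
    (hNS : ∀ q : ℕ, q.Prime → q ∣ N → q ∈ S) (hpT : (p : T) ∈ maximalIdeal T) (g : GQ) :
    H.ρ.ρ g + ι ((CycloChar.eps p g : ℤ_[p]ˣ) : ℤ_[p]) • H.ρ.ρ g⁻¹
      = LinearMap.trace T H.ρ.V (H.ρ.ρ g) • (1 : Module.End T H.ρ.V) := by
  obtain ⟨Q₀, hQ₀⟩ := exists_tau D S hdens hpS hNS g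
  set c : ℤ_[p] := ((CycloChar.eps p g : ℤ_[p]ˣ) : ℤ_[p]) with hc
  have h0 : ∑ i ∈ (Finset.univ : Finset (Fin 3)),
      mpp D S ((![1, MvPolynomial.C c, -Q₀] : Fin 3 → MvPolynomial (Idx N S) ℤ_[p]) i)
        * D.ρ ((![g, g⁻¹, 1] : Fin 3 → GQ) i) = 0 := by
    rw [Fin.sum_univ_three]
    show mpp D S 1 * D.ρ g + mpp D S (MvPolynomial.C c) * D.ρ g⁻¹ + mpp D S (-Q₀) * D.ρ 1 = 0
    rw [map_one, one_mul, mpp_C, map_neg, hQ₀, map_one, mul_one, tauD,
      Algebra.algebraMap_eq_smul_one, smul_mul_assoc, one_mul]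
    abel
  have key := relation_transfer D H ι hdens hpS hNS hpT Finset.univ _ _ h0
  rw [Fin.sum_univ_three] at key
  have key' : pip H ι 1 • H.ρ.ρ g + pip H ι (MvPolynomial.C c) • H.ρ.ρ g⁻¹
      + pip H ι (-Q₀) • H.ρ.ρ 1 = 0 := key
  rw [map_one, one_smul, pip_C, map_neg, pip_eq_trace D H hdens hpS hNS hpT ι g Q₀ hQ₀, map_one,
    neg_smul] at key'
  exact eq_of_sub_eq_zero (by rw [← key']; abel)

include D in
/-- **`det ρ = χ`**: the determinant of `H.ρ` is the cyclotomic character (through `ι`). -/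
theorem det_eq [Finite (ResidueField T)] (hdens : FrobDensity) (hpS : p ∈ S)
    (hNS : ∀ q : ℕ, q.Prime → q ∣ N → q ∈ S) (hpT : (p : T) ∈ maximalIdeal T) (g : GQ) :
    LinearMap.det (H.ρ.ρ g) = ι ((CycloChar.eps p g : ℤ_[p]ˣ) : ℤ_[p]) := by
  classical
  let e : Module.Basis (Fin 2) T H.ρ.V := Module.finBasisOfFinrankEq T H.ρ.V H.ρ.finrank_eq
  set c : T := ι ((CycloChar.eps p g : ℤ_[p]ˣ) : ℤ_[p]) with hc
  set M : Matrix (Fin 2) (Fin 2) T := LinearMap.toMatrix e e (H.ρ.ρ g) with hM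
  set M' : Matrix (Fin 2) (Fin 2) T := LinearMap.toMatrix e e (H.ρ.ρ g⁻¹) with hM'
  have hMM' : M * M' = 1 := by
    rw [hM, hM', ← LinearMap.toMatrix_mul, ← map_mul, mul_inv_cancel, map_one,
      LinearMap.toMatrix_one]
  have h1 : M + c • M' = M.trace • (1 : Matrix (Fin 2) (Fin 2) T) := by
    have := congrArg (LinearMap.toMatrix e e) (rho_add_inv D H ι hdens hpS hNS hpT g)
    rw [map_add, map_smul, map_smul, LinearMap.toMatrix_one,
      LinearMap.trace_eq_matrix_trace T e] at this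
    exact this
  -- multiply by `M`
  have h2 : M * M + c • (1 : Matrix (Fin 2) (Fin 2) T) = M.trace • M := by
    have := congrArg (fun Z => M * Z) h1
    simp only [Matrix.mul_add, Matrix.mul_smul, hMM', Matrix.mul_one] at this
    exact this
  have h3 := sq_eq_trace_smul_sub_det M
  have h4 : (c - M.det) • (1 : Matrix (Fin 2) (Fin 2) T) = 0 := by
    rw [sub_smul]
    rw [h3] at h2
    have e : c • (1 : Matrix (Fin 2) (Fin 2) T) - M.det • (1 : Matrix (Fin 2) (Fin 2) T)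
        = (M.trace • M - M.det • (1 : Matrix (Fin 2) (Fin 2) T)
            + c • (1 : Matrix (Fin 2) (Fin 2) T)) - M.trace • M := by abel
    rw [e, h2, sub_self]
  have h5 := congrFun (congrFun h4 0) 0
  rw [Matrix.smul_apply, Matrix.one_apply_eq, smul_eq_mul, mul_one, Matrix.zero_apply,
    sub_eq_zero] at h5
  rw [← LinearMap.det_toMatrix e, ← hM, ← h5]

/-- **(L1)** The ordinarity relation of the lattice, localised at the preimage of the maximal
ideal of `T`, holds in `End_T(V)`. -/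
theorem rel_of_ordRel [Finite (ResidueField T)] (hdens : FrobDensity) (hpS : p ∈ S)
    (hNS : ∀ q : ℕ, q.Prime → q ∣ N → q ∈ S) (hpT : (p : T) ∈ maximalIdeal T)
    (P : ValuationSubring Qb)
    (h : OrdRel D S P (Ideal.comap (piR D H ι hpS hpT) (maximalIdeal T)))
    {σ τ : GQ} (hσ : σ ∈ P.inertiaSubgroupIn ℚ) (hτ : τ ∈ P.inertiaSubgroupIn ℚ) :
    (H.ρ.ρ σ - ι ((CycloChar.eps p σ : ℤ_[p]ˣ) : ℤ_[p]) • (1 : Module.End T H.ρ.V))
      * (H.ρ.ρ τ - 1) = 0 := by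
  obtain ⟨U, hU, hrel⟩ := h σ hσ τ hτ
  obtain ⟨Q, hQ⟩ := mpp_surjective D S U.2
  set c : ℤ_[p] := ((CycloChar.eps p σ : ℤ_[p]ˣ) : ℤ_[p]) with hc
  have h0 : ∑ i ∈ (Finset.univ : Finset (Fin 4)),
      mpp D S ((![Q, -Q, -(MvPolynomial.C c * Q), MvPolynomial.C c * Q] :
          Fin 4 → MvPolynomial (Idx N S) ℤ_[p]) i)
        * D.ρ ((![σ * τ, σ, τ, 1] : Fin 4 → GQ) i) = 0 := by
    rw [Fin.sum_univ_four]
    show mpp D S Q * D.ρ (σ * τ) + mpp D S (-Q) * D.ρ σ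
      + mpp D S (-(MvPolynomial.C c * Q)) * D.ρ τ + mpp D S (MvPolynomial.C c * Q) * D.ρ 1 = 0
    rw [map_neg, map_neg, (mpp D S).map_mul, mpp_C, hQ, map_mul D.ρ, map_one D.ρ]
    have hcomm : algebraMap ℤ_[p] (Matrix (Fin D.r) (Fin D.r) ℤ_[p]) c
        * (U : Matrix (Fin D.r) (Fin D.r) ℤ_[p])
        = (U : Matrix (Fin D.r) (Fin D.r) ℤ_[p])
          * algebraMap ℤ_[p] (Matrix (Fin D.r) (Fin D.r) ℤ_[p]) c := Algebra.commutes c _
    rw [hcomm]
    have e1 : (U : Matrix (Fin D.r) (Fin D.r) ℤ_[p]) *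
          ((D.ρ σ - algebraMap ℤ_[p] (Matrix (Fin D.r) (Fin D.r) ℤ_[p]) c) * (D.ρ τ - 1))
        = (U : Matrix (Fin D.r) (Fin D.r) ℤ_[p]) * (D.ρ σ * D.ρ τ)
        + -(U : Matrix (Fin D.r) (Fin D.r) ℤ_[p]) * D.ρ σ
        + -((U : Matrix (Fin D.r) (Fin D.r) ℤ_[p])
            * algebraMap ℤ_[p] (Matrix (Fin D.r) (Fin D.r) ℤ_[p]) c) * D.ρ τ
        + (U : Matrix (Fin D.r) (Fin D.r) ℤ_[p])
            * algebraMap ℤ_[p] (Matrix (Fin D.r) (Fin D.r) ℤ_[p]) c * 1 := by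
      noncomm_ring
    rw [← e1, hrel]
  have key := relation_transfer D H ι hdens hpS hNS hpT Finset.univ _ _ h0
  rw [Fin.sum_univ_four] at key
  have key' : pip H ι Q • H.ρ.ρ (σ * τ) + pip H ι (-Q) • H.ρ.ρ σ
      + pip H ι (-(MvPolynomial.C c * Q)) • H.ρ.ρ τ
      + pip H ι (MvPolynomial.C c * Q) • H.ρ.ρ 1 = 0 := key
  rw [map_neg, map_neg, (pip H ι).map_mul, pip_C, map_mul H.ρ.ρ, map_one H.ρ.ρ] at key'
  have hu : IsUnit (pip H ι Q) := by
    have h1 : pip H ι Q = piR D H ι hpS hpT U := by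
      rw [← piR_ap D H ι hpS hpT Q]
      congr 1
      exact Subtype.ext hQ
    rw [h1]
    by_contra hn
    exact hU (Ideal.mem_comap.mpr ((IsLocalRing.mem_maximalIdeal _).mpr hn))
  have h2 : pip H ι Q • ((H.ρ.ρ σ - ι c • (1 : Module.End T H.ρ.V)) * (H.ρ.ρ τ - 1)) = 0 := by
    have e2 : (H.ρ.ρ σ - ι c • (1 : Module.End T H.ρ.V)) * (H.ρ.ρ τ - 1)
        = H.ρ.ρ σ * H.ρ.ρ τ - H.ρ.ρ σ - ι c • H.ρ.ρ τ + ι c • (1 : Module.End T H.ρ.V) := by
      rw [sub_mul, mul_sub, mul_sub, mul_one, mul_one, smul_mul_assoc, one_mul]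
      abel
    rw [e2, ← key']
    module
  exact (hu.smul_eq_zero).mp h2

/-- **(W.1) The wiring.**  The ordinarity relation of an `ESData` lattice, localised at the
preimage of the maximal ideal of `T`, gives the line of `IsOrdinaryAt` at `P`, as soon as one
inertia element `τ₀` has `χ τ₀ - 1` a unit. -/
theorem line_of_ordRel [Finite (ResidueField T)] (hdens : FrobDensity) (hpS : p ∈ S)
    (hNS : ∀ q : ℕ, q.Prime → q ∣ N → q ∈ S) (hpT : (p : T) ∈ maximalIdeal T)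
    (P : ValuationSubring Qb)
    (h : OrdRel D S P (Ideal.comap (piR D H ι hpS hpT) (maximalIdeal T)))
    (τ₀ : GQ) (hτ₀ : τ₀ ∈ P.inertiaSubgroupIn ℚ)
    (hu : IsUnit (ι ((CycloChar.eps p τ₀ : ℤ_[p]ˣ) : ℤ_[p]) - 1)) :
    ∃ L : Submodule T H.ρ.V,
      (∃ b : Module.Basis (Fin 2) T H.ρ.V, L = T ∙ b 0) ∧
      (∀ σ ∈ P.decompositionSubgroup ℚ, ∀ v ∈ L, H.ρ.ρ σ v ∈ L) ∧
      (∀ σ ∈ P.inertiaSubgroupIn ℚ, ∀ v : H.ρ.V, H.ρ.ρ σ v - v ∈ L) :=
  line_of_rel H.ρ (fun g => ι ((CycloChar.eps p g : ℤ_[p]ˣ) : ℤ_[p]))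
    (det_eq D H ι hdens hpS hNS hpT) P
    (fun _ hσ _ hτ => rel_of_ordRel D H ι hdens hpS hNS hpT P h hσ hτ) τ₀ hτ₀ hu

end Datum

end Fermat.Agent.S33.W.Wiring
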