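/-
S33 (ordinary at `p` when `p ∥ N`), route of helper228 (report #7423), brick (W.2).
Typed by helper71.

The two lattice-side inputs (TR), (NC) of the finite-level algebra (LAT), proved from the frozen
datum `H`, and the inertia element with nontrivial cyclotomic character:

* `exists_inertia_eps` : for `p` odd and `P` over `p` some `τ₀` in the inertia group of `P` has
  `ε(τ₀) - 1` a unit of `ℤ_p` (inertia moves `ζ_p`; `S44/G/Ram.card_map_autToPow`);
* `tr_of_hres`  : residual ordinarity gives `TR` at `𝔫 = piR⁻¹(𝔪_T)`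
  (`tr ρ̄(σ) = 1 + det ρ̄(σ)` on inertia, `det ρ = χ`);
* `nc_of_absIrr` : residual absolute irreducibility gives `NC` at that `𝔫`
  (a character `λ` with `λ² - tr ρ̄ λ + det ρ̄ = 0` would put all the functions
  `g ↦ tr (C ρ̄(g))` in the span of the two characters `λ`, `det ρ̄ / λ`, against the trace
  nondegeneracy of `S32/Transfer.rigid`).
-/
import Mathlib
import Fermat.Prelude.Def_CuspForm_HeckeGaloisRepDatum
import Fermat.Prelude.Def_GaloisRep_LocalConditions
import Fermat.Agent.S32.Transfer
import Fermat.Agent.S44.G.Ram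
import Fermat.Agent.S33.W.Wiring

set_option autoImplicit false

noncomputable section

namespace Fermat.Agent.S33.W.TrNc

open Fermat.Agent.S30 Fermat.Agent.S31.Glue Fermat.Agent.S32.HeckeRing Fermat.Agent.S32.Tau
  Fermat.Agent.S32.Transfer Fermat.Agent.S33.W.Wiring IsLocalRing Matrix

open scoped TensorProduct

local notation "Qb" => AlgebraicClosure ℚ

/-! ### Inertia moves `ζ_p` -/

/-- For an odd prime `p` and a valuation subring `P` of `ℚ̄` over `p`, some element `τ₀` of the
inertia group of `P` has `ε(τ₀) - 1` a unit of `ℤ_p`. -/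
theorem exists_inertia_eps {p : ℕ} [Fact p.Prime] (hp2 : p ≠ 2) (P : ValuationSubring Qb)
    (hP : P.LiesOverPrime p) :
    ∃ τ₀ ∈ P.inertiaSubgroupIn ℚ, IsUnit (((CycloChar.eps p τ₀ : ℤ_[p]ˣ) : ℤ_[p]) - 1) := by
  have hp : p.Prime := Fact.out
  have : NeZero p := ⟨hp.ne_zero⟩
  have hζ : IsPrimitiveRoot (CycloChar.zeta p 1) p := by
    have := CycloChar.zeta_spec p 1
    rwa [pow_one] at this
  have hcard := Fermat.Agent.S44.G.Ram.card_map_autToPow P hp hP hζ
  have hex : ∃ τ₀ ∈ P.inertiaSubgroupIn ℚ, hζ.autToPow ℚ τ₀ ≠ 1 := by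
    by_contra hcon
    push Not at hcon
    have hbot : (P.inertiaSubgroupIn ℚ).map (hζ.autToPow ℚ) = ⊥ := by
      rw [eq_bot_iff]
      rintro _ ⟨τ, hτ, rfl⟩
      exact Subgroup.mem_bot.mpr (hcon τ hτ)
    rw [hbot, Subgroup.card_bot] at hcard
    have := hp.two_le
    omega
  obtain ⟨τ₀, hτ₀, hne⟩ := hex
  refine ⟨τ₀, hτ₀, ?_⟩
  by_contra hnu
  apply hne
  have hmem : ((CycloChar.eps p τ₀ : ℤ_[p]ˣ) : ℤ_[p]) - 1 ∈ Ideal.span {(p : ℤ_[p]) ^ 1} := by
    rw [pow_one, ← PadicInt.maximalIdeal_eq_span_p]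
    exact (IsLocalRing.mem_maximalIdeal _).mpr hnu
  have h1 : PadicInt.toZModPow 1 ((CycloChar.eps p τ₀ : ℤ_[p]ˣ) : ℤ_[p]) = 1 := by
    rw [← PadicInt.ker_toZModPow, RingHom.mem_ker, map_sub, map_one, sub_eq_zero] at hmem
    exact hmem
  have hfix : τ₀ (CycloChar.zeta p 1) = CycloChar.zeta p 1 := by
    have h2 := CycloChar.eps_spec p τ₀ 1 (CycloChar.zeta_pow p 1)
    rw [h1] at h2
    have h1lt : Fact (1 < p ^ 1) := ⟨by rw [pow_one]; exact hp.one_lt⟩
    rw [ZMod.val_one, pow_one] at h2
    exact h2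
  have hs := hζ.autToPow_spec ℚ τ₀
  rw [hfix] at hs
  have h1p : Fact (1 < p) := ⟨hp.one_lt⟩
  have hval : ((hζ.autToPow ℚ τ₀ : (ZMod p)ˣ) : ZMod p).val = 1 := by
    refine hζ.pow_inj (ZMod.val_lt _) hp.one_lt ?_
    rw [hs, pow_one]
  apply Units.ext
  rw [Units.val_one, ← ZMod.natCast_zmod_val ((hζ.autToPow ℚ τ₀ : (ZMod p)ˣ) : ZMod p), hval,
    Nat.cast_one]

/-! ### Trace and determinant of an endomorphism that is the identity modulo a basis line -/

/-- If `f v - v` lies in the line spanned by the first vector of a basis for all `v`, then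
`tr f = 1 + det f`. -/
theorem trace_eq_one_add_det_of_line {k : Type*} [Field k] {V : Type*} [AddCommGroup V]
    [Module k V] (b : Module.Basis (Fin 2) k V) (f : Module.End k V)
    (hf : ∀ v, f v - v ∈ Submodule.span k {b 0}) :
    LinearMap.trace k V f = 1 + LinearMap.det f := by
  classical
  obtain ⟨a0, ha0⟩ := Submodule.mem_span_singleton.mp (hf (b 0))
  obtain ⟨a1, ha1⟩ := Submodule.mem_span_singleton.mp (hf (b 1))
  have hf0 : f (b 0) = (1 + a0) • b 0 := by
    rw [add_smul, one_smul, ha0]; abel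
  have hf1 : f (b 1) = b 1 + a1 • b 0 := by
    rw [ha1]; abel
  rw [LinearMap.trace_eq_matrix_trace k b, ← LinearMap.det_toMatrix b, Matrix.trace_fin_two,
    Matrix.det_fin_two, LinearMap.toMatrix_apply, LinearMap.toMatrix_apply,
    LinearMap.toMatrix_apply, LinearMap.toMatrix_apply, hf0, hf1]
  simp
  ring

/-! ### The frozen datum -/

section Datum

variable {N p : ℕ} [NeZero N] [Fact p.Prime] (D : ESData N p) {S : Finset ℕ}
  {𝒪 : Type} [CommRing 𝒪] [IsDomain 𝒪] [IsDiscreteValuationRing 𝒪]
  [IsAdicComplete (IsLocalRing.maximalIdeal 𝒪) 𝒪]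
  {θ : CuspForm.heckeAlgebra N 2 (↑S : Set ℕ) →+* IsLocalRing.ResidueField 𝒪}
  {T : Type} [CommRing T] [IsLocalRing T] [IsNoetherianRing T]
  [IsAdicComplete (IsLocalRing.maximalIdeal T) T] [Algebra 𝒪 T] [IsLocalHom (algebraMap 𝒪 T)]
  [Module.Finite 𝒪 T] [Module.Free 𝒪 T]
  (H : CuspForm.HeckeGaloisRepDatum N (↑S : Set ℕ) 𝒪 θ T) (ι : ℤ_[p] →+* T)

/-- **(TR) from residual ordinarity.** -/
theorem tr_of_hres [Finite (ResidueField T)] (hdens : FrobDensity) (hpS : p ∈ S)
    (hNS : ∀ q : ℕ, q.Prime → q ∣ N → q ∈ S) (hpT : (p : T) ∈ maximalIdeal T)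
    (P : ValuationSubring Qb) (hP : P.LiesOverPrime p)
    (hres : (GaloisRepAdic.ofResidualGaloisRep H.ρ.residual).IsOrdinaryAt p) :
    TR D S hdens hpS hNS P (Ideal.comap (piR D H ι hpS hpT) (maximalIdeal T)) := by
  intro σ hσ
  rw [Ideal.mem_comap, map_sub, map_sub, map_one, piR_tauR, piR_epsR,
    ← det_eq D H ι hdens hpS hNS hpT σ]
  obtain ⟨L, ⟨b, rfl⟩, -, hI⟩ := hres P hP
  have key : LinearMap.trace (ResidueField T) (ResidueField T ⊗[T] H.ρ.V)
        ((H.ρ.ρ σ).baseChange (ResidueField T))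
      = 1 + LinearMap.det ((H.ρ.ρ σ).baseChange (ResidueField T)) :=
    trace_eq_one_add_det_of_line (V := ResidueField T ⊗[T] H.ρ.V) b _ (fun v => hI σ hσ v)
  rw [LinearMap.trace_baseChange, LinearMap.det_baseChange] at key
  rw [← IsLocalRing.residue_eq_zero_iff, map_sub, map_sub, map_one]
  have hres' : ∀ x : T, IsLocalRing.residue T x = algebraMap T (ResidueField T) x := fun _ => rfl
  rw [hres', hres', key]
  ring

/-- **(NC) from residual absolute irreducibility.** -/
theorem nc_of_absIrr [Finite (ResidueField T)] (hdens : FrobDensity) (hpS : p ∈ S)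
    (hNS : ∀ q : ℕ, q.Prime → q ∣ N → q ∈ S) (hpT : (p : T) ∈ maximalIdeal T) :
    NC D S hdens hpS hNS (Ideal.comap (piR D H ι hpS hpT) (maximalIdeal T)) := by
  classical
  rintro ⟨lam, hlam⟩
  let e : Module.Basis (Fin 2) T H.ρ.V := Module.finBasisOfFinrankEq T H.ρ.V H.ρ.finrank_eq
  obtain ⟨hκ, -⟩ := rigid H.ρ H.residual_absIrr e
  -- the residual matrices
  let A : GQ → Matrix (Fin 2) (Fin 2) (ResidueField T) :=
    fun g => (LinearMap.toMatrix e e (H.ρ.ρ g)).map (IsLocalRing.residue T)
  have hA_mul : ∀ g h, A (g * h) = A g * A h := by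
    intro g h
    show (LinearMap.toMatrix e e (H.ρ.ρ (g * h))).map (IsLocalRing.residue T) = _
    rw [map_mul, LinearMap.toMatrix_mul, Matrix.map_mul]
  have hspan : Submodule.span (ResidueField T) (Set.range A) = ⊤ :=
    Fermat.Agent.S31.TraceDet.span_eq_top_of_trace A hκ
  have htr : ∀ g, (A g).trace = IsLocalRing.residue T (LinearMap.trace T H.ρ.V (H.ρ.ρ g)) := by
    intro g
    rw [LinearMap.trace_eq_matrix_trace T e]
    exact (AddMonoidHom.map_trace (IsLocalRing.residue T) _).symm
  have hdetA : ∀ g, (A g).det = IsLocalRing.residue T (LinearMap.det (H.ρ.ρ g)) := by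
    intro g
    rw [← LinearMap.det_toMatrix e]
    exact (RingHom.map_det (IsLocalRing.residue T) _).symm
  -- the character with values in the residue field of `T`
  let φ : Rp D S ⧸ Ideal.comap (piR D H ι hpS hpT) (maximalIdeal T) →+* ResidueField T :=
    Ideal.quotientMap (maximalIdeal T) (piR D H ι hpS hpT) le_rfl
  have hφ : ∀ x : Rp D S, φ (Ideal.Quotient.mk _ x)
      = IsLocalRing.residue T (piR D H ι hpS hpT x) := fun x => Ideal.quotientMap_mk
  let l : GQ → ResidueField T := fun g => φ (lam g)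
  have hl_mul : ∀ g h, l (g * h) = l g * l h := by
    intro g h
    show φ (lam (g * h)) = φ (lam g) * φ (lam h)
    rw [map_mul, Units.val_mul, map_mul]
  have hl_ne : ∀ g, l g ≠ 0 := fun g => ((lam g).isUnit.map φ).ne_zero
  have hquad : ∀ g, l g ^ 2 - (A g).trace * l g + (A g).det = 0 := by
    intro g
    have h := congrArg φ (hlam g)
    rw [map_add, map_sub, map_pow, map_mul, map_zero, hφ, hφ, piR_tauR, piR_epsR,
      ← det_eq D H ι hdens hpS hNS hpT g] at h
    rw [htr, hdetA]
    exact h
  -- the second character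
  let m : GQ → ResidueField T := fun g => (A g).det * (l g)⁻¹
  have htr' : ∀ g, (A g).trace = l g + m g := by
    intro g
    have hne := hl_ne g
    have h1 : (A g).trace * l g = l g ^ 2 + (A g).det := by linear_combination -(hquad g)
    calc (A g).trace = (A g).trace * l g * (l g)⁻¹ := by
          rw [mul_assoc, mul_inv_cancel₀ hne, mul_one]
      _ = (l g ^ 2 + (A g).det) * (l g)⁻¹ := by rw [h1]
      _ = l g + m g := by
          show _ = l g + (A g).det * (l g)⁻¹
          rw [add_mul, pow_two, mul_assoc, mul_inv_cancel₀ hne, mul_one]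
  have hm_mul : ∀ g h, m (g * h) = m g * m h := by
    intro g h
    show (A (g * h)).det * (l (g * h))⁻¹ = (A g).det * (l g)⁻¹ * ((A h).det * (l h)⁻¹)
    rw [hA_mul, Matrix.det_mul, hl_mul, mul_inv]
    ring
  -- the trace pairing, as a linear map into functions on the group
  let Φ : Matrix (Fin 2) (Fin 2) (ResidueField T) →ₗ[ResidueField T] (GQ → ResidueField T) :=
    { toFun := fun C g => (C * A g).trace
      map_add' := fun C C' => by
        funext g
        show ((C + C') * A g).trace = (C * A g).trace + (C' * A g).trace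
        rw [Matrix.add_mul, Matrix.trace_add]
      map_smul' := fun a C => by
        funext g
        show ((a • C) * A g).trace = a • (C * A g).trace
        rw [Matrix.smul_mul, Matrix.trace_smul] }
  have hΦapply : ∀ C g, Φ C g = (C * A g).trace := fun _ _ => rfl
  have hΦ : Function.Injective Φ := by
    rw [injective_iff_map_eq_zero]
    intro C hC
    exact hκ C (fun g => congrFun hC g)
  let W : Submodule (ResidueField T) (GQ → ResidueField T) :=
    Submodule.span (ResidueField T) (Set.range ![l, m])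
  have hlW : l ∈ W := Submodule.subset_span ⟨0, rfl⟩
  have hmW : m ∈ W := Submodule.subset_span ⟨1, rfl⟩
  have hΦW : ∀ C, Φ C ∈ W := by
    intro C
    have hC : C ∈ Submodule.span (ResidueField T) (Set.range A) := by
      rw [hspan]; exact Submodule.mem_top
    induction hC using Submodule.span_induction with
    | mem x hx =>
      obtain ⟨h, rfl⟩ := hx
      have h1 : Φ (A h) = l h • l + m h • m := by
        funext g
        rw [hΦapply, ← hA_mul, htr', hl_mul, hm_mul]
        rfl
      rw [h1]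
      exact W.add_mem (W.smul_mem _ hlW) (W.smul_mem _ hmW)
    | zero => rw [map_zero]; exact W.zero_mem
    | add x y _ _ hx hy => rw [map_add]; exact W.add_mem hx hy
    | smul a x _ hx => rw [map_smul]; exact W.smul_mem a hx
  -- dimension count
  have hfinW : Module.Finite (ResidueField T) W :=
    FiniteDimensional.span_of_finite (ResidueField T) (Set.finite_range _)
  have h1 : Module.finrank (ResidueField T) (Matrix (Fin 2) (Fin 2) (ResidueField T))
      ≤ Module.finrank (ResidueField T) W := by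
    refine LinearMap.finrank_le_finrank_of_injective (f := Φ.codRestrict W hΦW) ?_
    intro x y hxy
    exact hΦ (congrArg Subtype.val hxy)
  have h2 : Module.finrank (ResidueField T) W ≤ 2 :=
    (finrank_range_le_card (R := ResidueField T) ![l, m]).trans_eq (Fintype.card_fin 2)
  have h3 : Module.finrank (ResidueField T) (Matrix (Fin 2) (Fin 2) (ResidueField T)) = 4 := by
    simp [Module.finrank_matrix]
  omega

end Datum

end Fermat.Agent.S33.W.TrNc
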