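/-
S33 (ordinary at `p` when `p ∥ N`), route of helper228 (report #7423), the top (TOP).
Typed by helper71.

`result_of_latExit` : the frozen statement S33 (binders verbatim) from the single `H`-free Prop
`Wiring.LatExit N p` about an `ESData` lattice.  The lattice `D` given by `LatExit` at `P` is
used at `𝔫 = piR⁻¹(𝔪_T)`: (TR) and (NC) hold there by `TrNc.tr_of_hres`, `TrNc.nc_of_absIrr`,
so the ordinarity relation holds on `D` localised at `𝔫`, and `Wiring.line_of_ordRel` transfers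
it to `H.ρ` and produces the line.
-/
import Mathlib
import Fermat.Prelude.Def_CuspForm_HeckeGaloisRepDatum
import Fermat.Prelude.Def_GaloisRep_LocalConditions
import Fermat.Agent.S30.PadicHom
import Fermat.Agent.S32.Datum
import Fermat.Agent.S32.Transfer
import Fermat.Agent.S33.W.Wiring
import Fermat.Agent.S33.W.TrNc

set_option autoImplicit false

noncomputable section

namespace Fermat.Agent.S33.W.Top

open Fermat.Agent.S30 Fermat.Agent.S31.Glue Fermat.Agent.S32.HeckeRing Fermat.Agent.S32.Tau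
  Fermat.Agent.S32.Transfer Fermat.Agent.S33.W.Wiring Fermat.Agent.S33.W.TrNc IsLocalRing

variable {p : ℕ} {N : ℕ} [NeZero N] {S : Finset ℕ}
  {𝒪 : Type} [CommRing 𝒪] [IsDomain 𝒪] [IsDiscreteValuationRing 𝒪]
  [IsAdicComplete (IsLocalRing.maximalIdeal 𝒪) 𝒪]
  {θ : CuspForm.heckeAlgebra N 2 (↑S : Set ℕ) →+* IsLocalRing.ResidueField 𝒪}
  {T : Type} [CommRing T] [IsLocalRing T] [IsNoetherianRing T]
  [IsAdicComplete (IsLocalRing.maximalIdeal T) T] [Algebra 𝒪 T] [IsLocalHom (algebraMap 𝒪 T)]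
  [Module.Finite 𝒪 T] [Module.Free 𝒪 T]

/-- **S33 from the lattice exit**, with `p` prime as an instance. -/
theorem isOrdinaryAt_of_latExit [Fact p.Prime] [Finite (IsLocalRing.ResidueField 𝒪)]
    (hp2 : p ≠ 2) (hp𝒪 : (p : 𝒪) ∈ IsLocalRing.maximalIdeal 𝒪) (hpN : p ∣ N)
    (hNS : ∀ q : ℕ, q.Prime → q ∣ N → q ∈ S)
    (H : CuspForm.HeckeGaloisRepDatum N (↑S : Set ℕ) 𝒪 θ T)
    (hres : (GaloisRepAdic.ofResidualGaloisRep H.ρ.residual).IsOrdinaryAt p)
    (hL : LatExit N p) :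
    H.ρ.IsOrdinaryAt p := by
  intro P hP
  have hp : p.Prime := Fact.out
  have hpS : p ∈ S := hNS p hp hpN
  have hfin : Finite (ResidueField T) := Fermat.Agent.S32.Datum.finite_residueField H
  have hpT : (p : T) ∈ maximalIdeal T := Fermat.Agent.S32.Datum.natCast_mem_maximalIdeal hp𝒪
  obtain ⟨D, hD⟩ := hL P hP
  obtain ⟨τ₀, hτ₀, hu⟩ := exists_inertia_eps hp2 P hP
  have hmem : (p : Rp D S) ∈ Ideal.comap
      (piR D H ((algebraMap 𝒪 T).comp (PadicHom.padicIntRingHom p 𝒪 hp𝒪)) hpS hpT)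
      (maximalIdeal T) := by
    rw [Ideal.mem_comap, map_natCast]
    exact hpT
  have hord := hD S Fermat.Agent.S32.Datum.frobDensity hpS hNS _
    (comap_piR_isMaximal D H ((algebraMap 𝒪 T).comp (PadicHom.padicIntRingHom p 𝒪 hp𝒪)) hpS hpT)
    hmem
    (tr_of_hres D H _ Fermat.Agent.S32.Datum.frobDensity hpS hNS hpT P hP hres)
    (nc_of_absIrr D H _ Fermat.Agent.S32.Datum.frobDensity hpS hNS hpT)
  refine line_of_ordRel D H _ Fermat.Agent.S32.Datum.frobDensity hpS hNS hpT P hord τ₀ hτ₀ ?_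
  have h1 := hu.map ((algebraMap 𝒪 T).comp (PadicHom.padicIntRingHom p 𝒪 hp𝒪))
  rwa [map_sub, map_one] at h1

/-- **S33 from the lattice exit**, with the binders of the frozen statement verbatim. -/
theorem result_of_latExit
    [Finite (IsLocalRing.ResidueField 𝒪)] [CharZero 𝒪]
    (hp : p.Prime) (hp2 : p ≠ 2) (hp𝒪 : (p : 𝒪) ∈ IsLocalRing.maximalIdeal 𝒪) (hN : p ∣ N ∧ ¬ p ^ 2 ∣ N)
    (hNS : ∀ q : ℕ, q.Prime → q ∣ N → q ∈ S)
    (H : CuspForm.HeckeGaloisRepDatum N (↑S : Set ℕ) 𝒪 θ T)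
    (hres : (GaloisRepAdic.ofResidualGaloisRep H.ρ.residual).IsOrdinaryAt p)
    (hL : @LatExit N p _ ⟨hp⟩) :
    H.ρ.IsOrdinaryAt p :=
  haveI : Fact p.Prime := ⟨hp⟩
  isOrdinaryAt_of_latExit hp2 hp𝒪 hN.1 hNS H hres hL

end Fermat.Agent.S33.W.Top
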